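/-
PROJECT D (S48), part B, block B5 (C) C4, the places of `ℂ(X₁(M))`, file 1: THE CUSPS (helper17).

Twin of the cusp half of main's `S30/Analytic/AllPlacesC.lean` (l. 330-420) for `Γ₁(M)`.

`F` a field with `[Algebra ℂ F]`, `ρ : F →+* repField1 M` surjective and compatible with the
constants (helper27's `Dict/PointPlace.ConstCompat1`), `jF : F` with `ρ jF = jrep1 M`, `IsFF ℂ jF`
and `[F : ℂ(jF)] = [SL(2, ℤ) : ±Γ₁(M)]`.

* `Lc ρ q` : the cusp embeddings, `q_M`-expansion at `i∞` of `f ∘ γ⁻¹`, `q = γ (±Γ₁(M))`;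
* `Lc_injective` : they are pairwise different (helper7's `Lmap1Sep.mem_PG1_of_Lmap1_eq`);
* **`exists_cusp`** : every pole of `jF` is a cusp, with the exact ramification
  `width · log v (Λ_γ (ρ f)) = - M · ord_P f` (hypothesis-first on `Seams.WpForms M`);
* **`exists_cusp1`** : the same with `Seams.WpForms M` discharged (helper16's `Wp/Forms.wpForms`), in
  the literal helper19's point half / glue consumes (#5884).
-/
import Mathlib
import Fermat.Agent.S30.Analytic.AllPlacesC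
import Fermat.Agent.S48.B.B1.Lmap1Sep
import Fermat.Agent.S48.B.Dict.PointPlace
import Fermat.Agent.S48.B.B1.Wp.Forms

set_option autoImplicit false
set_option linter.unusedSectionVars false

open AlgebraicCurve WithZero IntermediateField Module

noncomputable section

namespace Fermat.Agent.S48.B.Dict.Places.Cusp

open UpperHalfPlane hiding I
open CongruenceSubgroup MulAction ModularGroup ModularForm
open Fermat.Agent.S20 Fermat.Agent.S24.FF Fermat.Agent.S24.RepHom Fermat.Agent.S24.LaurentCusp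
  Fermat.Agent.S24.OrbitDefs
open Fermat.Agent.S24.OrbitsCusp (cuspHom isCuspHol_sub_closed card_orbit_zpowers)
open Fermat.Agent.S30.Analytic.AllPlacesC (exists_dict_pole)
open Fermat.Agent.S48.B.B1.Seams Fermat.Agent.S48.B.B1.RepHom1 Fermat.Agent.S48.B.B1.LaurentCusp1
  Fermat.Agent.S48.B.B1.Orbits1Cusp Fermat.Agent.S48.B.B1.Lmap1J
  Fermat.Agent.S48.B.Dict.PointPlace
open scoped MatrixGroups ModularForm Manifold

variable {M : ℕ} [NeZero M] {F : Type*} [Field F] [Algebra ℂ F] (ρ : F →+* repField1 M)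

/-- expansion of `f ∘ γ` at `i∞` -/
def Λc (γ : SL(2, ℤ)) : F →+* LaurentSeries ℂ := (Λrep1 M γ).comp ρ

/-- the cusp embeddings: `q_M`-expansion at `i∞` of `f ∘ γ⁻¹`, `q = γ (±Γ₁(M))` -/
def Lc (q : Q1 M) : F →+* LaurentSeries ℂ := (Λrep1 M (Quotient.out q)⁻¹).comp ρ

theorem Λc_apply (γ : SL(2, ℤ)) (f : F) : Λc ρ γ f = Λrep1 M γ (ρ f) := rfl

theorem Lc_apply (q : Q1 M) (f : F) : Lc ρ q f = Λrep1 M (Quotient.out q)⁻¹ (ρ f) := rfl

variable {ρ}

theorem Λc_mul_left : ∀ δ ∈ PG1 M, ∀ γ : SL(2, ℤ), Λc ρ (δ * γ) = Λc ρ γ := by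
  intro δ hδ γ
  unfold Λc
  rw [Λrep1_mul_left M hδ γ]

theorem Lc_eq (q : Q1 M) : Lc ρ q = Lq (PG1 M) (Λc ρ) q := rfl

theorem comap_Lc_T_smul (q : Q1 M) :
    v.valuationSubring.comap (Lc ρ ((ModularGroup.T : SL(2, ℤ)) • q)) =
      v.valuationSubring.comap (Lc ρ q) := by
  have h1 : Lc ρ ((ModularGroup.T : SL(2, ℤ)) • q) =
      Λc ρ ((Quotient.out q)⁻¹ * (ModularGroup.T : SL(2, ℤ)) ^ (-1 : ℤ)) := by
    rw [zpow_neg_one, Lc_eq]
    exact Lq_smul Λc_mul_left _ q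
  ext f
  rw [ValuationSubring.mem_comap, ValuationSubring.mem_comap, Valuation.mem_valuationSubring_iff,
    Valuation.mem_valuationSubring_iff, h1, Lc_apply, Λc_apply, v_Λrep1_mul_T_zpow]

/-- **`hs`** at the cusps, for an arbitrary element of `repField1 M`. -/
theorem dvd_width1_mul_log_Λrep1 (q : Q1 M) (g : repField1 M) (hg : g ≠ 0) :
    (M : ℤ) ∣ (width1 M q : ℤ) * log (v (Λrep1 M (Quotient.out q)⁻¹ g)) := by
  have hne : Λrep1 M (Quotient.out q)⁻¹ g ≠ 0 := (map_ne_zero _).mpr hg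
  obtain ⟨k, a, b, h⟩ := g.2
  have e : Λrep1 M (Quotient.out q)⁻¹ g =
      cuspExp M (a ∣[k] (Quotient.out q)⁻¹) / cuspExp M (b ∣[k] (Quotient.out q)⁻¹) :=
    Λrep1_eq_div M _ _ h
  rw [e] at hne ⊢
  have hA : cuspExp M (a ∣[k] (Quotient.out q)⁻¹) ≠ 0 := fun h0 => hne (by rw [h0, zero_div])
  have hB : cuspExp M (b ∣[k] (Quotient.out q)⁻¹) ≠ 0 := fun h0 => hne (by rw [h0, div_zero])
  exact dvd_width_mul_log_valuation_of_isMF h.ha h.hb _ (width1_dvd M q) (width1_pos M q)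
    (conj_T_width1_mem M q) hA hB

theorem Lc_algebraMap (hρ : ConstCompat1 ρ) (q : Q1 M) (c : ℂ) :
    Lc ρ q (algebraMap ℂ F c) = algebraMap ℂ (LaurentSeries ℂ) c := by
  rw [Lc_apply, hρ c]
  exact Lmap1_const (slashP1_cusp M _) c _

theorem v_Lc_algebraMap_le (hρ : ConstCompat1 ρ) (q : Q1 M) (c : ℂ) :
    v (Lc ρ q (algebraMap ℂ F c)) ≤ 1 := by
  rw [Lc_algebraMap hρ, algebraMap_eq_ofPS_C]
  exact v_ofPS_le_one _

theorem Lc_jF {jF : F} (hj : ρ jF = jrep1 M) (q : Q1 M) :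
    Lc ρ q jF = (cuspExp M (⇑E₄)) ^ 3 / cuspExp M ModularForm.discriminant := by
  have h4 : IsCuspHol M (⇑E₄) := (isCuspHol_one_of_class E₄).of_one
  have e1 : (⇑Fermat.Agent.S24.LevelRaise.E4cube : ℍ → ℂ) = (⇑E₄ : ℍ → ℂ) ^ 3 := by
    funext z
    rw [Fermat.Agent.S24.LevelRaise.E4cube_apply, Pi.pow_apply]
  have e2 : (⇑Fermat.Agent.S24.LevelRaise.DeltaMF : ℍ → ℂ) = ModularForm.discriminant := rfl
  have := Lmap1_levelOne (T := cuspHom M) (slashP1_cusp M (Quotient.out q)⁻¹)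
    (jrep1 M) (isRepOf1_jC M) (IsMF.coe Fermat.Agent.S24.LevelRaise.E4cube)
    (IsMF.coe Fermat.Agent.S24.LevelRaise.DeltaMF)
  rw [Lc_apply, hj]
  show Lmap1 (cuspHom M) (Quotient.out q)⁻¹ _ (jrep1 M) = _
  rw [this]
  show cuspExp M _ / cuspExp M _ = _
  rw [e1, e2, cuspExp_pow h4]

theorem v_Lc_jF_inv {jF : F} (hj : ρ jF = jrep1 M) (q : Q1 M) :
    v (Lc ρ q jF⁻¹) = exp (-(M : ℤ)) := by
  rw [map_inv₀, Lc_jF hj, inv_div]
  exact valuation_discriminant_div_E₄_cube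

/-- the cusp embeddings attached to different cosets of `±Γ₁(M)` are different -/
theorem Lc_injective (hW : WpForms M) (hsurj : Function.Surjective ρ) :
    Function.Injective (Lc ρ) := by
  intro q q' hqq
  obtain ⟨P, hP, hPσ⟩ := hW
  have hall : ∀ g : repField1 M,
      Λrep1 M (Quotient.out q)⁻¹ g = Λrep1 M (Quotient.out q')⁻¹ g := by
    intro g
    obtain ⟨f, rfl⟩ := hsurj g
    exact RingHom.congr_fun hqq f
  have key : (Quotient.out q')⁻¹ * ((Quotient.out q)⁻¹)⁻¹ ∈ PG1 M :=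
    Fermat.Agent.S48.B.B1.Lmap1Sep.mem_PG1_of_Lmap1_eq (cuspHom M) (isCuspHol_sub_closed M) hP hPσ
      (slashP1_cusp M _) (slashP1_cusp M _) (hall _) (fun _ => hall _)
  rw [inv_inv] at key
  have h2 : ((Quotient.out q' : SL(2, ℤ)) : Q1 M) = (Quotient.out q : SL(2, ℤ)) :=
    QuotientGroup.eq.2 key
  rw [QuotientGroup.out_eq', QuotientGroup.out_eq'] at h2
  exact h2.symm

/-- **Every pole of `j` is a cusp**, with the exact ramification. -/
theorem exists_cusp (hW : WpForms M) (hρ : ConstCompat1 ρ) (hsurj : Function.Surjective ρ)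
    {jF : F} (hj : ρ jF = jrep1 M) (hx : IsFF ℂ jF)
    (hdeg : finrank ℂ⟮jF⟯ F = Nat.card (Q1 M)) (P : Place ℂ F)
    (hP : jF ∉ P.toValuationSubring) :
    ∃ q : Q1 M, P.toValuationSubring = v.valuationSubring.comap (Lc ρ q) ∧
      ∀ f : F, f ≠ 0 →
        (width1 M q : ℤ) * log (v (Λrep1 M (Quotient.out q)⁻¹ (ρ f))) =
          -((M : ℤ) * P.ord f) := by
  classical
  let _ : Fintype (Q1 M) := Fintype.ofFinite _
  have hM0 : 0 < M := Nat.pos_of_ne_zero (NeZero.ne M)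
  obtain ⟨q, hq, hf⟩ := exists_dict_pole hx v (ModularGroup.T : SL(2, ℤ)) (Lc ρ)
    (by rw [hdeg, Nat.card_eq_fintype_card]) (Lc_injective hW hsurj)
    (fun q q' c => by rw [Lc_algebraMap hρ, Lc_algebraMap hρ])
    (fun q q' => by rw [Lc_jF hj, Lc_jF hj])
    (fun q c => v_Lc_algebraMap_le hρ q c) M hM0 (v_Lc_jF_inv hj) comap_Lc_T_smul
    (fun q => by rw [card_orbit_zpowers]; exact width1_dvd M q)
    (fun q f hf => by
      rw [card_orbit_zpowers]
      exact dvd_width1_mul_log_Λrep1 q (ρ f) ((map_ne_zero ρ).mpr hf)) P hP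
  refine ⟨q, hq, fun f hf0 => ?_⟩
  have := hf f hf0
  rw [card_orbit_zpowers] at this
  exact this

/-- **Every pole of `j` is a cusp**, with the exact ramification; `Seams.WpForms M` discharged, the
embedding spelled out (helper19's literal, #5884). -/
theorem exists_cusp1 (hρ : ∀ c : ℂ, ρ (algebraMap ℂ F c) = crep1 M c)
    (hsurj : Function.Surjective ρ) {jF : F} (hj : ρ jF = jrep1 M) (hx : IsFF ℂ jF)
    (hdeg : Module.finrank ℂ⟮jF⟯ F = Nat.card (Q1 M)) (P : Place ℂ F)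
    (hP : jF ∉ P.toValuationSubring) :
    ∃ q : Q1 M,
      P.toValuationSubring = v.valuationSubring.comap ((Λrep1 M (Quotient.out q)⁻¹).comp ρ) ∧
      ∀ f : F, f ≠ 0 →
        (width1 M q : ℤ) * log (v (Λrep1 M (Quotient.out q)⁻¹ (ρ f))) =
          -((M : ℤ) * P.ord f) :=
  exists_cusp (Fermat.Agent.S48.B.B1.Wp.Forms.wpForms M) hρ hsurj hj hx hdeg P hP

end Fermat.Agent.S48.B.Dict.Places.Cusp
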