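import Mathlib
import Fermat.Agent.S20.CountOrbitSize
import Fermat.Agent.S24.OrbitsPtGlue
import Fermat.Agent.S30.Analytic.AllPlacesC
import Fermat.Agent.S48.B.B1.LaurentPt1
import Fermat.Agent.S48.B.B1.Lmap1J
import Fermat.Agent.S48.B.B1.Lmap1Sep
import Fermat.Agent.S48.B.B1.Orbits1PtGlue
import Fermat.Agent.S48.B.Dict.PointPlace

/-!
# PROJECT D (S48), part B, block B5 (C) C4, the POINT half of the twin of
`S30/Analytic/AllPlacesC.lean` (helper27, spare path)

`F` a field with `[Algebra ℂ F]`, `ρ : F →+* repField1 M` surjective and compatible with the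
constants (`PointPlace.ConstCompat1`), `jF : F` with `ρ jF = jrep1 M`, `IsFF ℂ jF` and
`[F : ℂ(jF)] = [SL(2, ℤ) : ±Γ₁(M)]`.

* `Lp ρ τ q` : the point embeddings (Laurent expansion at `τ` of `f ∘ γ⁻¹`, `q = γ ±Γ₁(M)`);
* `exists_point_of` : the dictionary at a point `τ` with stabiliser generated by `d`;
* **`exists_point`** : every zero of `j - a` is a point of `ℍ`, with the exact ramification
  `e ∈ {1, 2, 3}`.

The generic half (`AllPlacesC.exists_dict_zero`) is main's, imported untouched; the separation of the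
cosets is helper7's `Lmap1Sep.mem_PG1_of_Lmap1_eq` (on `WpForms M`).
-/

set_option autoImplicit false
set_option linter.unusedSectionVars false

open AlgebraicCurve WithZero IntermediateField Module

noncomputable section

namespace Fermat.Agent.S48.B.Dict.Places.Point

open UpperHalfPlane hiding I
open CongruenceSubgroup MulAction ModularGroup ModularForm
open Fermat.Agent.S20 Fermat.Agent.S24.FF
open Fermat.Agent.S24.RepHom (HolHom)
open Fermat.Agent.S24.LaurentPt (taylorHolHom)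
open Fermat.Agent.LevelOne.JBasic
open Fermat.Agent.S30.Analytic.AllPlacesC (exists_dict_zero)
open Fermat.Agent.S48.B.B1.Seams Fermat.Agent.S48.B.B1.RepHom1 Fermat.Agent.S48.B.B1.LaurentPt1
open Fermat.Agent.S48.B.B1.Lmap1J Fermat.Agent.S48.B.B1.Orbits1PtGlue
open Fermat.Agent.S48.B.Dict.PointPlace
open scoped MatrixGroups ModularForm Manifold

open Fermat.Agent.S24.OrbitDefs (v)

variable {M : ℕ} [NeZero M] {F : Type*} [Field F] [Algebra ℂ F] (ρ : F →+* repField1 M)

/-- the point embeddings: Laurent expansion at `τ` of `f ∘ γ⁻¹`, `q = γ ±Γ₁(M)` -/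
def Lp (τ : ℍ) (q : Q1 M) : F →+* LaurentSeries ℂ := (LptQ1 M τ q).comp ρ

theorem Lp_apply (τ : ℍ) (q : Q1 M) (f : F) : Lp ρ τ q f = LptQ1 M τ q (ρ f) := rfl

variable {ρ}

/-- the cosets are separated by the point embeddings (helper7's `Lmap1Sep`) -/
theorem Lp_injective (hW : WpForms M) (hsurj : Function.Surjective ρ) (τ : ℍ) :
    Function.Injective (Lp ρ τ) := by
  intro q q' h
  obtain ⟨P, hP, hPσ⟩ := hW
  have hall : ∀ g : repField1 M,
      Lmap1 (taylorHolHom τ) (Quotient.out q)⁻¹ (slashP1_mdiff M _) g =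
        Lmap1 (taylorHolHom τ) (Quotient.out q')⁻¹ (slashP1_mdiff M _) g := by
    intro g
    obtain ⟨f, rfl⟩ := hsurj g
    exact RingHom.congr_fun h f
  have key : (Quotient.out q')⁻¹ * ((Quotient.out q)⁻¹)⁻¹ ∈ PG1 M :=
    Fermat.Agent.S48.B.B1.Lmap1Sep.mem_PG1_of_Lmap1_eq (taylorHolHom τ)
      Fermat.Agent.S24.LmapSep.mdiff_sub_closed hP hPσ (slashP1_mdiff M _) (slashP1_mdiff M _)
      (hall _) (fun _ => hall _)
  rw [inv_inv] at key
  have h2 : ((Quotient.out q' : SL(2, ℤ)) : Q1 M) = (Quotient.out q : SL(2, ℤ)) :=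
    QuotientGroup.eq.2 key
  rw [QuotientGroup.out_eq', QuotientGroup.out_eq'] at h2
  exact h2.symm

theorem Lp_algebraMap (hρ : ConstCompat1 ρ) (τ : ℍ) (q : Q1 M) (c : ℂ) :
    Lp ρ τ q (algebraMap ℂ F c) = HahnSeries.C c := by
  rw [Lp_apply, hρ c]
  exact Lpt1_const τ _ c _

theorem Lp_jF {jF : F} (hj : ρ jF = jrep1 M) (τ : ℍ) (q q' : Q1 M) :
    Lp ρ τ q jF = Lp ρ τ q' jF := by
  rw [Lp_apply, Lp_apply, hj]
  exact (Lpt1_levelOne τ _ (jrep1 M) (isRepOf1_jC M) (IsMF.coe Fermat.Agent.S24.LevelRaise.E4cube)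
    (IsMF.coe Fermat.Agent.S24.LevelRaise.DeltaMF)).trans
    (Lpt1_levelOne τ _ (jrep1 M) (isRepOf1_jC M) (IsMF.coe Fermat.Agent.S24.LevelRaise.E4cube)
      (IsMF.coe Fermat.Agent.S24.LevelRaise.DeltaMF)).symm

theorem v_Lp_algebraMap_le (hρ : ConstCompat1 ρ) (τ : ℍ) (q : Q1 M) (c : ℂ) :
    v (Lp ρ τ q (algebraMap ℂ F c)) ≤ 1 := by
  rw [Lp_apply, hρ c]
  exact valuation_Lpt1_const_le_one τ _ c _

theorem v_Lp_jF_sub (hρ : ConstCompat1 ρ) {jF : F} (hj : ρ jF = jrep1 M) (τ : ℍ) (q : Q1 M) :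
    v (Lp ρ τ q (jF - algebraMap ℂ F (jFun τ)))
      = exp (-((if jFun τ = 0 then 3 else if jFun τ = 1728 then 2 else 1 : ℕ) : ℤ)) := by
  rw [Lp_apply, map_sub, hj, hρ]
  exact valued_Lmap1_jrep_sub (taylorHolHom τ) (fun _ _ => rfl) (Quotient.out q)⁻¹
    (slashP1_mdiff M _)

theorem comap_Lp_smul (τ : ℍ) {d : SL(2, ℤ)} (hd : d • τ = τ) (q : Q1 M) :
    v.valuationSubring.comap (Lp ρ τ (d • q)) = v.valuationSubring.comap (Lp ρ τ q) := by
  ext f
  have h := comap_LptQ1_smul (M := M) τ hd q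
  have h1 : ρ f ∈ v.valuationSubring.comap (LptQ1 M τ (d • q)) ↔
      ρ f ∈ v.valuationSubring.comap (LptQ1 M τ q) := by rw [h]
  exact h1

/-- **The dictionary at a point `τ` with stabiliser generated by `d`, ramification `m`.** -/
theorem exists_point_of (hW : WpForms M) (hρ : ConstCompat1 ρ) (hsurj : Function.Surjective ρ)
    {jF : F} (hj : ρ jF = jrep1 M) (hx : IsFF ℂ jF)
    (hdeg : finrank ℂ⟮jF⟯ F = Nat.card (Q1 M))
    (τ : ℍ) (d : SL(2, ℤ)) (hd : d • τ = τ) (m : ℕ)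
    (hm : (if jFun τ = 0 then 3 else if jFun τ = 1728 then 2 else 1 : ℕ) = m)
    (hdvd : ∀ q : Q1 M, Nat.card (orbit (Subgroup.zpowers d) q) ∣ m)
    (hs : ∀ (q : Q1 M) (g : repField1 M), g ≠ 0 →
      (m : ℤ) ∣ (Nat.card (orbit (Subgroup.zpowers d) q) : ℤ) * log (v (LptQ1 M τ q g)))
    (P : Place ℂ F)
    (hP : jF - algebraMap ℂ F (jFun τ) ∈ P.toValuationSubring.nonunits) :
    ∃ q : Q1 M, P.toValuationSubring = v.valuationSubring.comap (Lp ρ τ q) ∧
      ∀ f : F, f ≠ 0 →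
        (Nat.card (orbit (Subgroup.zpowers d) q) : ℤ) * log (v (LptQ1 M τ q (ρ f))) =
          -((m : ℤ) * P.ord f) := by
  classical
  let _ : Fintype (Q1 M) := Fintype.ofFinite _
  have hm0 : 0 < m := by
    rw [← hm]; split_ifs <;> norm_num
  refine exists_dict_zero hx (jFun τ) v d (Lp ρ τ) ?_ (Lp_injective hW hsurj τ) ?_ ?_
    (fun q c => v_Lp_algebraMap_le hρ τ q c) m hm0 ?_ (comap_Lp_smul τ hd) hdvd ?_ P hP
  · rw [hdeg, Nat.card_eq_fintype_card]
  · intro q q' c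
    rw [Lp_algebraMap hρ, Lp_algebraMap hρ]
  · intro q q'
    exact Lp_jF hj τ q q'
  · intro q
    rw [v_Lp_jF_sub hρ hj τ q, hm]
  · intro q f hf
    exact hs q (ρ f) ((map_ne_zero ρ).mpr hf)

theorem card_orbit_one1 (q : Q1 M) :
    Nat.card (orbit (Subgroup.zpowers (1 : SL(2, ℤ))) q) = 1 :=
  Fermat.Agent.S24.OrbitsPtGlue.card_orbit_one (G := SL(2, ℤ)) q

theorem card_orbit_S1 (q : Q1 M) [Decidable ((S : SL(2, ℤ)) • q = q)] :
    Nat.card (orbit (Subgroup.zpowers (S : SL(2, ℤ))) q) = if (S : SL(2, ℤ)) • q = q then 1 else 2 :=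
  Count.card_orbit_zpowers_prime _ q 2 Nat.prime_two (S_sq_smul1 M q)

theorem card_orbit_ST1 (q : Q1 M) [Decidable ((S * T : SL(2, ℤ)) • q = q)] :
    Nat.card (orbit (Subgroup.zpowers (S * T : SL(2, ℤ))) q) =
      if (S * T : SL(2, ℤ)) • q = q then 1 else 3 :=
  Count.card_orbit_zpowers_prime _ q 3 Nat.prime_three (ST_cube_smul1 M q)

/-- **Every zero of `j - a` is a point of `ℍ`**, with the exact ramification `e ∈ {1, 2, 3}`:
`e = 2` only at `τ = i` with `S` fixing the coset, `e = 3` only at `τ = ρ` with `S T` fixing the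
coset. -/
theorem exists_point (hW : WpForms M) (hρ : ConstCompat1 ρ) (hsurj : Function.Surjective ρ)
    {jF : F} (hj : ρ jF = jrep1 M) (hx : IsFF ℂ jF)
    (hdeg : finrank ℂ⟮jF⟯ F = Nat.card (Q1 M)) (a : ℂ) (P : Place ℂ F)
    (hP : jF - algebraMap ℂ F a ∈ P.toValuationSubring.nonunits) :
    ∃ (τ : ℍ) (q : Q1 M) (e : ℕ), jFun τ = a ∧
      P.toValuationSubring = v.valuationSubring.comap (Lp ρ τ q) ∧
      (∀ f : F, f ≠ 0 → log (v (LptQ1 M τ q (ρ f))) = -((e : ℤ) * P.ord f)) ∧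
      (e = 1 ∨ (e = 2 ∧ τ = UpperHalfPlane.I ∧ (S : SL(2, ℤ)) • q = q) ∨
        (e = 3 ∧ τ = rho ∧ (S * T : SL(2, ℤ)) • q = q)) := by
  classical
  by_cases h1728 : a = 1728
  · -- the point `i`
    subst h1728
    have hP' : jF - algebraMap ℂ F (jFun UpperHalfPlane.I) ∈ P.toValuationSubring.nonunits := by
      rw [jFun_I]; exact hP
    obtain ⟨q, hq, hf⟩ := exists_point_of hW hρ hsurj hj hx hdeg UpperHalfPlane.I S
      Fermat.Agent.S24.LmapTaylor.S_smul_I 2 (by rw [jFun_I]; norm_num)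
      (fun q => card_orbit_S_dvd M q)
      (by
        intro q g hg
        rw [card_orbit_S1 q]
        split_ifs with hq
        · rw [Nat.cast_one, one_mul]
          exact_mod_cast two_dvd_log_valuation_LptQ1 hq hg
        · exact dvd_mul_right _ _) P hP'
    rw [card_orbit_S1 q] at hf
    by_cases hfix : (S : SL(2, ℤ)) • q = q
    · refine ⟨UpperHalfPlane.I, q, 2, jFun_I, hq, fun f hf0 => ?_, Or.inr (Or.inl ⟨rfl, rfl, hfix⟩)⟩
      have := hf f hf0
      rw [if_pos hfix, Nat.cast_one, one_mul] at this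
      exact_mod_cast this
    · refine ⟨UpperHalfPlane.I, q, 1, jFun_I, hq, fun f hf0 => ?_, Or.inl rfl⟩
      have := hf f hf0
      rw [if_neg hfix] at this
      push_cast at this ⊢
      linarith
  by_cases h0 : a = 0
  · -- the point `ρ`
    subst h0
    have hP' : jF - algebraMap ℂ F (jFun rho) ∈ P.toValuationSubring.nonunits := by
      rw [jFun_rho]; exact hP
    obtain ⟨q, hq, hf⟩ := exists_point_of hW hρ hsurj hj hx hdeg rho (S * T)
      ST_smul_rho 3 (by rw [jFun_rho]; norm_num)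
      (fun q => card_orbit_ST_dvd M q)
      (by
        intro q g hg
        rw [card_orbit_ST1 q]
        split_ifs with hq
        · rw [Nat.cast_one, one_mul]
          exact_mod_cast three_dvd_log_valuation_LptQ1 hq hg
        · exact dvd_mul_right _ _) P hP'
    rw [card_orbit_ST1 q] at hf
    by_cases hfix : (S * T : SL(2, ℤ)) • q = q
    · refine ⟨rho, q, 3, jFun_rho, hq, fun f hf0 => ?_, Or.inr (Or.inr ⟨rfl, rfl, hfix⟩)⟩
      have := hf f hf0
      rw [if_pos hfix, Nat.cast_one, one_mul] at this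
      exact_mod_cast this
    · refine ⟨rho, q, 1, jFun_rho, hq, fun f hf0 => ?_, Or.inl rfl⟩
      have := hf f hf0
      rw [if_neg hfix] at this
      push_cast at this ⊢
      linarith
  · -- a generic point
    obtain ⟨τ, rfl⟩ := jFun_surjective a
    obtain ⟨q, hq, hf⟩ := exists_point_of hW hρ hsurj hj hx hdeg τ 1 (one_smul _ _) 1
      (by rw [if_neg h0, if_neg h1728])
      (fun q => by rw [card_orbit_one1 q])
      (fun q g _ => by rw [Nat.cast_one]; exact one_dvd _) P hP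
    refine ⟨τ, q, 1, rfl, hq, fun f hf0 => ?_, Or.inl rfl⟩
    have := hf f hf0
    rw [card_orbit_one1 q] at this
    push_cast at this ⊢
    linarith

end Fermat.Agent.S48.B.Dict.Places.Point

end
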