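import Mathlib
import Fermat.Agent.S30.Analytic.AllPlacesC
import Fermat.Agent.S48.B.B1.Orbits1Cusp
import Fermat.Agent.S48.B.Dict.Places.Point
import Fermat.Agent.S48.B.Dict.TwistedSurj
import Fermat.Agent.S48.B.Dict.FinrankC

/-!
# PROJECT D (S48), part B, block B5 (C) C4, the TAIL of the twin of `S30/Analytic/AllPlacesC.lean`
and of `AllPlacesCGlue.lean` (helper27, spare path), hypothesis-first on the cusp half

* `CuspDict ρ jF` : the conclusion of the cusp half (`Places/Cusp.exists_cusp1`, helper29), as a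
  `Prop`;
* `exists_point_or_cusp1` : every place of `F/ℂ` is a point of `ℍ` or a cusp, with the exact
  formula for `ord_P`;
* `dvd_ord_of_local_quot1`, `dvd_ord_of_local_mk1` : the surjectivity-side transfer;
* `rhoFC1 heq : FC1 M →+* repField1 M` (identity on series), `constCompat_rhoFC1`, `rhoFC1_jFC1`,
  `rhoFC1_surjective`;
* **`localGlobal1_of`** : `WpForms M`, `Deg1 M` and the cusp dictionary for `(rhoFC1 heq, jFC1 M)`
  give helper29's `TwistedSurj.LocalGlobal1 M heq`.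
-/

set_option autoImplicit false
set_option linter.unusedSectionVars false

open AlgebraicCurve WithZero IntermediateField Module

noncomputable section

namespace Fermat.Agent.S48.B.Dict.Places.Glue

open UpperHalfPlane hiding I
open CongruenceSubgroup MulAction ModularGroup ModularForm
open Fermat.Agent.S20 Fermat.Agent.S24.FF
open Fermat.Agent.S24.OrbitDefs (v)
open Fermat.Agent.LevelOne.JBasic
open Fermat.Agent.S30.Analytic.AllPlacesC (pole_or_zero)
open Fermat.Agent.S48.B.Defs.Model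
open Fermat.Agent.S48.B.Defs.Spec (FC1)
open Fermat.Agent.S48.B.B1.Seams Fermat.Agent.S48.B.B1.RepHom1 Fermat.Agent.S48.B.B1.LaurentPt1
open Fermat.Agent.S48.B.B1.Lmap1J Fermat.Agent.S48.B.B1.Orbits1PtGlue
open Fermat.Agent.S48.B.B1.Orbits1Cusp (Λrep1 width1)
open Fermat.Agent.S48.B.B1.RepEq1
open Fermat.Agent.S48.B.Dict.PointPlace Fermat.Agent.S48.B.Dict.Places.Point
open scoped MatrixGroups ModularForm Manifold

variable {M : ℕ} [NeZero M] {F : Type*} [Field F] [Algebra ℂ F] (ρ : F →+* repField1 M)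

/-- **the cusp dictionary** (the conclusion of the cusp half): every pole of `j` is a cusp, with the
exact ramification -/
def CuspDict (jF : F) : Prop :=
  ∀ P : Place ℂ F, jF ∉ P.toValuationSubring →
    ∃ q : Q1 M,
      P.toValuationSubring = v.valuationSubring.comap ((Λrep1 M (Quotient.out q)⁻¹).comp ρ) ∧
      ∀ f : F, f ≠ 0 →
        (width1 M q : ℤ) * log (v (Λrep1 M (Quotient.out q)⁻¹ (ρ f))) = -((M : ℤ) * P.ord f)

variable {ρ}

/-- **Every place of `F/ℂ` is a point of `ℍ` or a cusp**, with the exact formula for `ord_P`. -/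
theorem exists_point_or_cusp1 (hW : WpForms M) (hρ : ConstCompat1 ρ)
    (hsurj : Function.Surjective ρ) {jF : F} (hj : ρ jF = jrep1 M) (hx : IsFF ℂ jF)
    (hdeg : finrank ℂ⟮jF⟯ F = Nat.card (Q1 M)) (hcusp : CuspDict ρ jF) (P : Place ℂ F) :
    (∃ (τ : ℍ) (q : Q1 M) (e : ℕ),
      P.toValuationSubring = v.valuationSubring.comap (Lp ρ τ q) ∧
      (∀ f : F, f ≠ 0 → log (v (LptQ1 M τ q (ρ f))) = -((e : ℤ) * P.ord f)) ∧
      (e = 1 ∨ (e = 2 ∧ τ = UpperHalfPlane.I ∧ (S : SL(2, ℤ)) • q = q) ∨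
        (e = 3 ∧ τ = rho ∧ (S * T : SL(2, ℤ)) • q = q))) ∨
    (∃ q : Q1 M,
      P.toValuationSubring = v.valuationSubring.comap ((Λrep1 M (Quotient.out q)⁻¹).comp ρ) ∧
      ∀ f : F, f ≠ 0 →
        (width1 M q : ℤ) * log (v (Λrep1 M (Quotient.out q)⁻¹ (ρ f))) = -((M : ℤ) * P.ord f)) := by
  rcases pole_or_zero hx P with hP | ⟨a, hP⟩
  · exact Or.inr (hcusp P hP)
  · obtain ⟨τ, q, e, -, hq, hf, he⟩ := exists_point hW hρ hsurj hj hx hdeg a P hP
    exact Or.inl ⟨τ, q, e, hq, hf, he⟩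

/-- **Surjectivity-side transfer** (coset form at the cusps): if `n` divides the local order of
`ρ g` at every point of `ℍ` (with the extra factor `2`, `3` at the elliptic fixed points) and at
every cusp (in the normalisation `M n ∣ width · log v`), then `n ∣ ord_P g` at EVERY place `P`
of `F/ℂ`. -/
theorem dvd_ord_of_local_quot1 (hW : WpForms M) (hρ : ConstCompat1 ρ)
    (hsurj : Function.Surjective ρ) {jF : F} (hj : ρ jF = jrep1 M) (hx : IsFF ℂ jF)
    (hdeg : finrank ℂ⟮jF⟯ F = Nat.card (Q1 M)) (hcusp : CuspDict ρ jF) {g : F} (hg : g ≠ 0)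
    (n : ℤ)
    (hgen : ∀ (τ : ℍ) (γ : SL(2, ℤ)), n ∣ log (v (Lpt1 M τ γ (ρ g))))
    (hI : ∀ γ : SL(2, ℤ), γ * S * γ⁻¹ ∈ PG1 M →
      2 * n ∣ log (v (Lpt1 M UpperHalfPlane.I γ (ρ g))))
    (hrho : ∀ γ : SL(2, ℤ), γ * (S * T) * γ⁻¹ ∈ PG1 M →
      3 * n ∣ log (v (Lpt1 M rho γ (ρ g))))
    (hc : ∀ q : Q1 M, (M : ℤ) * n ∣ (width1 M q : ℤ) *
      log (v (Λrep1 M (Quotient.out q)⁻¹ (ρ g))))
    (P : Place ℂ F) : n ∣ P.ord g := by
  rcases exists_point_or_cusp1 hW hρ hsurj hj hx hdeg hcusp P with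
    ⟨τ, q, e, -, hf, he⟩ | ⟨q, -, hf⟩
  · have h1 := hf g hg
    rcases he with rfl | ⟨rfl, rfl, hfix⟩ | ⟨rfl, rfl, hfix⟩
    · -- unramified
      obtain ⟨c, hc⟩ := hgen τ (Quotient.out q)⁻¹
      refine ⟨-c, ?_⟩
      have h2 : log (v (LptQ1 M τ q (ρ g))) = n * c := hc
      rw [h2] at h1
      push_cast at h1
      linarith
    · -- `i`
      obtain ⟨c, hc⟩ := hI (Quotient.out q)⁻¹ (conj_S_mem M q hfix)
      refine ⟨-c, ?_⟩
      have h2 : log (v (LptQ1 M UpperHalfPlane.I q (ρ g))) = 2 * n * c := hc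
      rw [h2] at h1
      push_cast at h1
      linarith
    · -- `ρ`
      obtain ⟨c, hc⟩ := hrho (Quotient.out q)⁻¹ (conj_ST_mem M q hfix)
      refine ⟨-c, ?_⟩
      have h2 : log (v (LptQ1 M rho q (ρ g))) = 3 * n * c := hc
      rw [h2] at h1
      push_cast at h1
      linarith
  · have h1 := hf g hg
    obtain ⟨c, hc'⟩ := hc q
    rw [hc'] at h1
    have hM0 : (M : ℤ) ≠ 0 := by exact_mod_cast NeZero.ne M
    refine ⟨-c, ?_⟩
    have h3 : (M : ℤ) * P.ord g = (M : ℤ) * (n * -c) := by linarith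
    exact mul_left_cancel₀ hM0 h3

/-- **Surjectivity-side transfer**, in the shape of `TwistedSurj.LocalGlobal1` (helper29): the cusp
hypothesis for every `γ`, with the width of the coset of `γ⁻¹`. -/
theorem dvd_ord_of_local_mk1 (hW : WpForms M) (hρ : ConstCompat1 ρ)
    (hsurj : Function.Surjective ρ) {jF : F} (hj : ρ jF = jrep1 M) (hx : IsFF ℂ jF)
    (hdeg : finrank ℂ⟮jF⟯ F = Nat.card (Q1 M)) (hcusp : CuspDict ρ jF) (g : F) (hg : g ≠ 0)
    (n : ℕ)
    (hgen : ∀ (τ : ℍ) (γ : SL(2, ℤ)), (n : ℤ) ∣ log (Valued.v (Lpt1 M τ γ (ρ g))))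
    (hI : ∀ γ : SL(2, ℤ), γ * ModularGroup.S * γ⁻¹ ∈ PG1 M →
      (2 * n : ℤ) ∣ log (Valued.v (Lpt1 M UpperHalfPlane.I γ (ρ g))))
    (hrho : ∀ γ : SL(2, ℤ), γ * (ModularGroup.S * ModularGroup.T) * γ⁻¹ ∈ PG1 M →
      (3 * n : ℤ) ∣ log (Valued.v (Lpt1 M Fermat.Agent.LevelOne.JBasic.rho γ (ρ g))))
    (hc : ∀ γ : SL(2, ℤ), (M : ℤ) * n ∣ ((width1 M (QuotientGroup.mk γ⁻¹ : Q1 M) : ℕ) : ℤ) *
          log (Valued.v (Λrep1 M γ (ρ g))))
    (P : Place ℂ F) : (n : ℤ) ∣ P.ord g := by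
  refine dvd_ord_of_local_quot1 hW hρ hsurj hj hx hdeg hcusp hg n hgen hI hrho (fun q => ?_) P
  have h := hc (Quotient.out q)⁻¹
  rw [inv_inv, QuotientGroup.out_eq'] at h
  exact h

/-! ### the glue: `F := FC1 M`, `ρ :=` the identity on series -/

section Glue

variable (M)

/-- the identity-on-series ring hom `FC1 M → repField1 M` -/
def rhoFC1 (heq : RepEq M) : FC1 M →+* repField1 M :=
  ((repFieldEquiv1 heq).symm : FC1 M →+* repField1 M)

theorem rhoFC1_apply (heq : RepEq M) (g : FC1 M) : rhoFC1 M heq g = (repFieldEquiv1 heq).symm g :=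
  rfl

theorem rhoFC1_surjective (heq : RepEq M) : Function.Surjective (rhoFC1 M heq) :=
  (repFieldEquiv1 heq).symm.surjective

theorem constCompat_rhoFC1 (heq : RepEq M) : ConstCompat1 (rhoFC1 M heq) := by
  intro c
  apply Subtype.ext
  show algebraMap ℂ (LaurentSeries ℂ) c = HahnSeries.C c
  rw [Fermat.Agent.S24.OrbitDefs.algebraMap_eq_ofPS_C]
  exact HahnSeries.ofPowerSeries_C c

theorem rhoFC1_jFC1 (heq : RepEq M) : rhoFC1 M heq (jFC1 M) = jrep1 M := by
  apply Subtype.ext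
  rfl

/-- **the local-global principle for the places of `ℂ(X₁(M))`**, from the cusp dictionary -/
theorem localGlobal1_of (hW : WpForms M) (hdeg : Deg1 M) (heq : RepEq M)
    (hcusp : CuspDict (rhoFC1 M heq) (jFC1 M)) :
    Fermat.Agent.S48.B.Dict.TwistedSurj.LocalGlobal1 M heq := by
  intro g hg n hgen hI hrho hc P
  exact dvd_ord_of_local_mk1 (ρ := rhoFC1 M heq) hW (constCompat_rhoFC1 M heq)
    (rhoFC1_surjective M heq) (rhoFC1_jFC1 M heq)
    (Fermat.Agent.S48.B.Dict.FinrankC.isFF_jFC1' M hdeg)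
    (Fermat.Agent.S48.B.Dict.FinrankC.finrank_jFC1 M hdeg) hcusp g hg n hgen hI hrho hc P

end Glue

end Fermat.Agent.S48.B.Dict.Places.Glue

end
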