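import Mathlib
import Fermat.Agent.S48.B.B1.Wp.Forms
import Fermat.Agent.S48.B.Dict.Places.Cusp
import Fermat.Agent.S48.B.Dict.Places.Glue
import Fermat.Agent.S48.B.Dict.PsiDictOf

/-!
# PROJECT D (S48), part B, block B5 (C): the local-global principle for the places of `ℂ(X₁(M))`
and the analytic dictionary `Ψ` of `X₁(M)`, on `Deg1 M` and `RepLe M` only (helper27, assembly)

* **`localGlobal1`** : helper29's `TwistedSurj.LocalGlobal1 M heq` from `Deg1 M`
  (the point half `Places/Point`, the cusp half `Places/Cusp` (helper17), the tail `Places/Glue`,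
  `WpForms M` = helper16's `Wp/Forms.wpForms M`);
* **`psiDict1`** : `Spec.PsiDict1 M` for `5 ≤ M` from `Deg1 M` and `RepLe M`.
-/

set_option autoImplicit false

namespace Fermat.Agent.S48.B.Dict.Places.Final

open Fermat.Agent.S48.B.Defs.Model Fermat.Agent.S48.B.Defs.Spec
open Fermat.Agent.S48.B.B1.Seams (Deg1 RepLe RepEq)
open Fermat.Agent.S48.B.B1.RepEq1 (repEq_of jFC1)
open Fermat.Agent.S48.B.Dict.Places.Glue

variable (M : ℕ) [NeZero M]

/-- the cusp dictionary for `ℂ(X₁(M))` (helper17's `Places/Cusp.exists_cusp1`) -/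
theorem cuspDict (hdeg : Deg1 M) (heq : RepEq M) : CuspDict (rhoFC1 M heq) (jFC1 M) :=
  fun P hP =>
    Fermat.Agent.S48.B.Dict.Places.Cusp.exists_cusp1 (constCompat_rhoFC1 M heq)
      (rhoFC1_surjective M heq) (rhoFC1_jFC1 M heq)
      (Fermat.Agent.S48.B.Dict.FinrankC.isFF_jFC1' M hdeg)
      (Fermat.Agent.S48.B.Dict.FinrankC.finrank_jFC1 M hdeg) P hP

/-- **the local-global principle for the places of `ℂ(X₁(M))`** -/
theorem localGlobal1 (hdeg : Deg1 M) (heq : RepEq M) :
    Fermat.Agent.S48.B.Dict.TwistedSurj.LocalGlobal1 M heq :=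
  localGlobal1_of M (Fermat.Agent.S48.B.B1.Wp.Forms.wpForms M) hdeg heq (cuspDict M hdeg heq)

/-- **The analytic dictionary `Ψ` of `X₁(M)` over `ℂ`** (`M ≥ 5`). -/
theorem psiDict1 (hM : 5 ≤ M) (hdeg : Deg1 M) (hle : RepLe M) : PsiDict1 M :=
  Fermat.Agent.S48.B.Dict.PsiDictOf.psiDict1_of_localGlobal M hM hdeg hle
    (localGlobal1 M hdeg (repEq_of M hdeg hle))

end Fermat.Agent.S48.B.Dict.Places.Final
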